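import Fermat.Agent.CFT.T.Defs
import Fermat.Agent.CFT.Global.GC.Setup
import Fermat.Agent.CFT.K.BridgeCyclo

set_option autoImplicit false

/-!
# CFT / Global / TG6-C : `card_placeSystem`, `index_eq_finrank`, `exists_zeta`.
-/

open ExtCitation Module
open scoped Pointwise

noncomputable section

namespace Fermat.Agent.CFT.Global.TG6

open Fermat.Agent.CFT Fermat.Agent.CFT.Global Fermat.Agent.S14 Fermat.Agent.Bridge
  IsDedekindDomain NumberField

variable {p : ℕ} [Fact p.Prime] {S : Finset Nat.Primes}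

/-- Galois correspondence, elementwise. -/
theorem mem_of_fixed (L : IntermediateField ℚ Qb) {x : Qb}
    (hx : ∀ σ ∈ L.fixingSubgroup, σ x = x) : x ∈ L := by
  have := isGalois_Qb
  rw [← InfiniteGalois.fixedField_fixingSubgroup L, IntermediateField.mem_fixedField_iff]
  exact hx

/-- **TG6-C1** a place system has as many elements as there are places of `L` over `S`. -/
theorem card_placeSystem (L : IntermediateField ℚ Qb) [FiniteDimensional ℚ L] {ι : Type} [Fintype ι]
    (A : ι → ValuationSubring Qb) (hA : IsPlaceSystem S L.fixingSubgroup A) :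
    Fintype.card ι = (SPl S L).card := by
  classical
  choose q hqS hq using hA.lies
  let f : ι → Pl ↥L := fun i => plA L (q i).2 (A i) (hq i)
  have hfab : ∀ i, Above ((q i : Nat.Primes) : ℕ) (f i) := fun i =>
    natCast_mem_primeBelow (emb L) (hq i)
  have hfid : ∀ i, (f i).asIdeal = primeBelow (emb L) (A i) := fun i => rfl
  have hinj : Function.Injective f := by
    intro i j h
    have hqq : ((q i : Nat.Primes) : ℕ) = q j :=
      above_unique (q i).2 (q j).2 (hfab i) (h ▸ hfab j)
    have h1 : primeBelow (emb L) (A i) = primeBelow (emb L) (A j) := by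
      rw [← hfid, ← hfid, h]
    obtain ⟨n, hn, hn'⟩ := exists_smul_eq_of_primeBelow_eq (emb L) (q i).2 (hq i)
      (hqq ▸ hq j) h1
    rw [fixer_emb] at hn
    exact hA.inj i j n hn hn'
  rw [← Finset.card_univ, ← Finset.card_image_of_injective _ hinj]
  congr 1
  ext v
  simp only [Finset.mem_image, Finset.mem_univ, true_and, mem_SPl]
  constructor
  · rintro ⟨i, rfl⟩
    exact ⟨q i, hqS i, hfab i⟩
  · rintro ⟨q', hq'S, hv⟩
    have := v.isPrime
    obtain ⟨A', hA', hP⟩ := exists_place (emb L) q'.2 v.asIdeal hv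
    obtain ⟨i, w, hw, hwA⟩ := hA.surj q' hq'S A' hA'
    refine ⟨i, HeightOneSpectrum.ext ?_⟩
    rw [hfid, ← hP, ← hwA, primeBelow_smul_of_mem_fixer (emb L) (by rw [fixer_emb]; exact hw)]

/-- **TG6-C2** -/
theorem index_eq_finrank (L : IntermediateField ℚ Qb) [FiniteDimensional ℚ L] :
    L.fixingSubgroup.index = finrank ℚ ↥L := by
  have := isGalois_Qb
  exact (IntermediateField.finrank_eq_fixingSubgroup_index (E' := Qb) L).symm

/-- **TG6-C3** a primitive `p`-th root of unity in `L`. -/
theorem exists_zeta (L : IntermediateField ℚ Qb)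
    (hmu : ∀ s ∈ L.fixingSubgroup, cycloChar p s = 1) : ∃ ζ : ↥L, IsPrimitiveRoot ζ p := by
  obtain ⟨ζ, hζ⟩ := Fermat.Agent.GAL.exists_primitiveRoot_Zbar p
  have hmem : (ζ : Qb) ∈ L := by
    refine mem_of_fixed L fun s hs => ?_
    have h1 : Fermat.Agent.GAL.cycloChar p s = 1 := hmu s hs
    have h2 := Fermat.Agent.GAL.cycloChar_spec p s hζ.pow_eq_one
    rwa [h1, Units.val_one, ZMod.val_one, pow_one] at h2
  refine ⟨⟨(ζ : Qb), hmem⟩, ?_⟩
  exact IsPrimitiveRoot.of_map_of_injective (f := algebraMap ↥L Qb)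
    (hf := (algebraMap ↥L Qb).injective) hζ

end Fermat.Agent.CFT.Global.TG6
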