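import Fermat.Agent.CFT.T.Defs
import Fermat.Agent.Common.PlaceBridge

set_option autoImplicit false

/-!
# CFT / Global / TG6-D : conjugation acts trivially on `H^2`; local triviality at a place system
implies local triviality at all places over `S`.
-/

open ExtCitation Module
open scoped Pointwise

noncomputable section

namespace Fermat.Agent.CFT.Global.TG6

open Fermat.Agent.CFT Fermat.Agent.CFT.Global Fermat.Agent.Bridge

/-- conjugation acts trivially on 2-cocycles (trivial coefficients) up to the explicit coboundary of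
`κ g = x (g, w) - x (w, w⁻¹ g w)`. -/
theorem conj_cocycle {G V : Type} [Group G] [AddCommGroup V] (x : G × G → V)
    (hx : ∀ g h k : G, x (h, k) - x (g * h, k) + x (g, h * k) - x (g, h) = 0) (w g h : G) :
    x (g, h) = x (w⁻¹ * g * w, w⁻¹ * h * w) +
      ((x (h, w) - x (w, w⁻¹ * h * w)) - (x (g * h, w) - x (w, w⁻¹ * (g * h) * w))
        + (x (g, w) - x (w, w⁻¹ * g * w))) := by
  have h1 := hx g h w
  have h2 := hx w (w⁻¹ * g * w) (w⁻¹ * h * w)
  have h3 := hx g w (w⁻¹ * h * w)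
  have e1 : w * (w⁻¹ * g * w) = g * w := by group
  have e2 : w⁻¹ * g * w * (w⁻¹ * h * w) = w⁻¹ * (g * h) * w := by group
  have e3 : w * (w⁻¹ * h * w) = h * w := by group
  rw [e1, e2] at h2
  rw [e3] at h3
  rw [← sub_eq_zero]
  calc _ = -(x (h, w) - x (g * h, w) + x (g, h * w) - x (g, h))
          + -(x (w⁻¹ * g * w, w⁻¹ * h * w) - x (g * w, w⁻¹ * h * w) + x (w, w⁻¹ * (g * h) * w)
              - x (w, w⁻¹ * g * w))
          + (x (w, w⁻¹ * h * w) - x (g * w, w⁻¹ * h * w) + x (g, h * w) - x (g, w)) := by abel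
    _ = 0 := by rw [h1, h2, h3]; simp

/-- a cocycle (trivial coefficients) which is a coboundary on `H` is a coboundary on every conjugate
of `H`. -/
theorem conj_mem_B2 {G : Type} [Group G] {k : Type} [CommRing k] (𝒰 𝒱 : Levels G)
    (h𝒰𝒱 : 𝒰.carrier ⊆ 𝒱.carrier) {x : G × G → k}
    (hx : x ∈ Z2 𝒰 (1 : Representation k G k)) (H H' : Subgroup G) (w : G)
    (hH : ∀ g, g ∈ H' → w⁻¹ * g * w ∈ H)
    (h : x ∘ Prod.map H.subtype H.subtype ∈ B2 (𝒱.sub H) (resRep (1 : Representation k G k) H)) :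
    x ∘ Prod.map H'.subtype H'.subtype ∈
      B2 (𝒱.sub H') (resRep (1 : Representation k G k) H') := by
  have hcoc : ∀ g h k : G, x (h, k) - x (g * h, k) + x (g, h * k) - x (g, h) = 0 := by
    intro g h k
    have := congrFun (LinearMap.mem_ker.1 hx.1) (g, h, k)
    simpa using this
  obtain ⟨U, hU, hxU⟩ : 𝒰.LC2 x := hx.2
  have hUn : U.Normal := 𝒰.normal U hU
  obtain ⟨y, hy, hyx⟩ := h
  have hyx' : ∀ g h : ↥H, y h - y (g * h) + y g = x ((g : G), (h : G)) :=
    fun g h => congrFun hyx (g, h)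
  obtain ⟨_, ⟨U', hU', rfl⟩, hyU⟩ : (𝒱.sub H).LC1 y := hy
  have hUn' : U'.Normal := 𝒱.normal U' hU'
  let c : ↥H' → ↥H := fun g => ⟨w⁻¹ * g * w, hH g g.2⟩
  let κ : ↥H' → k := fun g => x ((g : G), w) - x (w, w⁻¹ * (g : G) * w)
  have hc_mul : ∀ g h, c (g * h) = c g * c h := by
    intro g h
    apply Subtype.ext
    change w⁻¹ * ((g : G) * h) * w = (w⁻¹ * g * w) * (w⁻¹ * h * w)
    group
  have h1 : y ∘ c ∈ C1 k k (𝒱.sub H') := by
    refine ⟨_, ⟨U', hU', rfl⟩, fun g s hs => ?_⟩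
    simp only [Function.comp_apply, hc_mul]
    refine hyU _ _ ?_
    change w⁻¹ * (s : G) * w ∈ U'
    have := hUn'.conj_mem _ hs w⁻¹
    simpa using this
  have h2 : κ ∈ C1 k k (𝒱.sub H') := by
    refine ⟨_, ⟨U, h𝒰𝒱 hU, rfl⟩, fun g s hs => ?_⟩
    have hs' : (s : G) ∈ U := hs
    have hs'' : w⁻¹ * (s : G) * w ∈ U := by
      have := hUn.conj_mem _ hs' w⁻¹
      simpa using this
    have e1 : x ((g : G) * s, w) = x ((g : G), w) := by
      have := hxU g w s 1 hs' (Subgroup.one_mem _)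
      rwa [mul_one] at this
    have e2 : x (w, w⁻¹ * ((g : G) * s) * w) = x (w, w⁻¹ * (g : G) * w) := by
      have := hxU w (w⁻¹ * (g : G) * w) 1 (w⁻¹ * (s : G) * w) (Subgroup.one_mem _) hs''
      rw [mul_one] at this
      rw [← this]
      congr 2
      group
    change x ((g : G) * s, w) - x (w, w⁻¹ * ((g : G) * s) * w) = _
    rw [e1, e2]
  refine ⟨y ∘ c + κ, Submodule.add_mem _ h1 h2, ?_⟩
  funext ⟨g, h⟩
  have h3 := conj_cocycle x hcoc w (g : G) (h : G)
  have h4 := hyx' (c g) (c h)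
  change (y (c h) + κ h) - (y (c (g * h)) + κ (g * h)) + (y (c g) + κ g) = x ((g : G), (h : G))
  rw [h3]
  have e5 : x (w⁻¹ * (g : G) * w, w⁻¹ * (h : G) * w) = x ((c g : G), (c h : G)) := rfl
  rw [e5, ← h4, hc_mul]
  simp only [κ, Subgroup.coe_mul]
  ring

variable {p : ℕ} [Fact p.Prime] {S : Finset Nat.Primes}

/-- **TG6-D** -/
theorem locTriv_all {W : Subgroup GQ} {ι : Type} [Fintype ι] [DecidableEq ι]
    (A : ι → ValuationSubring Qb) (hA : IsPlaceSystem S W A) {x : ↥W × ↥W → ZMod p}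
    (hx : x ∈ (DF S W A).ShaZ2 (1 : Representation (ZMod p) (DF S W A).G (ZMod p))) :
    LocTriv S (1 : Representation (ZMod p) ↥W (ZMod p)) x := by
  intro q hq A' hA'
  obtain ⟨i, w, hw, rfl⟩ := hA.surj q hq A' hA'
  refine conj_mem_B2 ((levS S).sub W) (levAll.sub W) ?_ hx.1 (locSub W (A i))
    (locSub W (w • A i)) ⟨w, hw⟩ ?_ (hx.2 i (Set.mem_univ i))
  · rintro _ ⟨U, hU, rfl⟩
    exact ⟨U, levS_le_levAll S hU, rfl⟩
  · intro g hg
    exact mem_decomposition_smul_iff.1 hg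

end Fermat.Agent.CFT.Global.TG6
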