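import Fermat.Agent.CFT.Global.H1.Kummer
import Fermat.Agent.CFT.Global.GC.Setup

set_option autoImplicit false

/-!
# CFT / Global / TG6-A : `H^1(G_S(L), F_p) ≅ B_S(L)` in the shape of `TG6/Spec.lean`.
-/

open ExtCitation Module

namespace Fermat.Agent.CFT.Global.TG6A

open Fermat.Agent.CFT Fermat.Agent.CFT.Global Fermat.Agent.S14 Fermat.Agent.Bridge IsDedekindDomain
  NumberField

variable {p : ℕ} [Fact p.Prime] {S : Finset Nat.Primes}

theorem SPl_eq_aboveS (L : IntermediateField ℚ Qb) [FiniteDimensional ℚ L] :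
    SPl S L = aboveS ↥L S := by
  ext v
  rw [mem_SPl, mem_aboveS]

theorem imageField_emb (L : IntermediateField ℚ Qb) : imageField (emb L) = L := by
  ext x
  rw [mem_imageField]
  exact ⟨by rintro ⟨y, rfl⟩; exact y.2, fun h => ⟨⟨x, h⟩, rfl⟩⟩

theorem coprime_of_not_mem (hpS : pPrime p ∈ S) (q : Nat.Primes) (hq : q ∉ S) :
    Nat.Coprime (q : ℕ) p := by
  rw [Nat.coprime_primes q.2 (Fact.out : p.Prime)]
  intro h
  exact hq ((Subtype.ext h : q = pPrime p) ▸ hpS)

theorem H1_equiv (hpS : pPrime p ∈ S) (L : IntermediateField ℚ Qb) [FiniteDimensional ℚ L]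
    (hL : L.IsUnramifiedOutside S) {ζ : ↥L} (hζ : IsPrimitiveRoot ζ p) :
    Nonempty (H1 ((levS S).sub L.fixingSubgroup)
      (1 : Representation (ZMod p) ↥L.fixingSubgroup (ZMod p)) ≃ₗ[ZMod p] BS p (SPl S L)) := by
  rw [SPl_eq_aboveS]
  exact H1_equiv_BS (φ := emb L) (by rw [imageField_emb]; exact hL) (coprime_of_not_mem hpS) hζ
    L.fixingSubgroup (fixer_emb L).symm

theorem finrank_H1_eq (hpS : pPrime p ∈ S) (L : IntermediateField ℚ Qb) [FiniteDimensional ℚ L]
    (hL : L.IsUnramifiedOutside S) {ζ : ↥L} (hζ : IsPrimitiveRoot ζ p) :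
    Module.Finite (ZMod p) (H1 ((levS S).sub L.fixingSubgroup)
      (1 : Representation (ZMod p) ↥L.fixingSubgroup (ZMod p))) ∧
    finrank (ZMod p) (H1 ((levS S).sub L.fixingSubgroup)
      (1 : Representation (ZMod p) ↥L.fixingSubgroup (ZMod p))) = finrank (ZMod p) (BS p (SPl S L)) := by
  obtain ⟨e⟩ := H1_equiv hpS L hL hζ
  have := (finrank_BS hζ (SPl S L)).1
  exact ⟨Module.Finite.equiv e.symm, e.finrank_eq⟩

end Fermat.Agent.CFT.Global.TG6A
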