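import Fermat.Agent.CFT.T.Defs
import Fermat.Agent.CFT.Global.GC.Basic
import Fermat.Agent.CFT.Global.H1.BS
import Fermat.Agent.CFT.Global.TG6.Card
import Fermat.Agent.CFT.Global.TG6.Conj
import Fermat.Agent.CFT.Global.TG6.H1

set_option autoImplicit false

/-!
# CFT / Global / TG6 : split of `T/Num.lean` (`num_of_nice`).  Statements.

`W = L.fixingSubgroup`, `L / ℚ` finite normal, unramified outside `S`, `ζ_p ∈ L`.
`s = SPl S L` (places of `L` over `S`), `c = clRank p s = dim coker (divP p s)` (`Global/H1/BS.lean`).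

* `HasseS p S`  : the Hasse principle GC3 in ELEMENTARY multiplicative form (interface with helper57);
* TG6-A `finrank_H1_eq` : `H^1(G_S(L),F_p) ≅ B_S(L)` (Kummer);
* TG6-B `sha2_le_proof` (in `TG6/Sha2.lean`) : `sha^2 ≤ c`;
* TG6-C `card_placeSystem`, `index_eq_finrank`;
* TG6-D `locTriv_all` : local triviality at a place system implies local triviality at all places.
-/

open ExtCitation Module
open scoped Pointwise

noncomputable section

namespace Fermat.Agent.CFT.Global

open Fermat.Agent.CFT Fermat.Agent.S14 Fermat.Agent.Bridge IsDedekindDomain NumberField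

/-- `x` is locally trivial at ALL places of `Qb` over `S`
(conventions of `GC/Setup.lean` = those of `DF`: `locSub V A : Subgroup ↥V`, `locLev V A`). -/
abbrev LocTrivAll (p : ℕ) (S : Finset Nat.Primes) {V : Subgroup GQ} (x : ↥V × ↥V → ZMod p) : Prop :=
  LocTriv S (1 : Representation (ZMod p) ↥V (ZMod p)) x

/-- `φ : V → Qbˣ` is an `S`-level-constant cochain with values in `ℚ_S^×` -/
def IsSCochain (S : Finset Nat.Primes) {V : Subgroup GQ} (φ : ↥V → Qb) : Prop :=
  (∀ g, φ g ≠ 0) ∧ ∃ U ∈ (levS S).carrier,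
    (∀ g s : ↥V, (s : GQ) ∈ U → φ (g * s) = φ g) ∧ ∀ g, ∀ s ∈ U, s (φ g) = φ g

/-- **GC3, elementary form**: an `S`-level `μ_p`-valued 2-cocycle on an open subgroup `V` of `G_S`
(`ζ_p` fixed by `V`), locally trivial at all places over `S`, is the coboundary of an `S`-level-constant
cochain with values in `ℚ_S^×`. -/
def HasseS (p : ℕ) (S : Finset Nat.Primes) : Prop :=
  ∀ (V : Subgroup GQ) (ζ : Qb), (∃ U ∈ (levS S).carrier, U ≤ V) → IsPrimitiveRoot ζ p →
    (∀ g ∈ V, g ζ = ζ) →
    ∀ x ∈ Z2 ((levS S).sub V) (1 : Representation (ZMod p) ↥V (ZMod p)), LocTrivAll p S x →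
      ∃ φ : ↥V → Qb, IsSCochain S φ ∧
        ∀ g h : ↥V, ζ ^ (x (g, h)).val = (g : GQ) (φ h) * φ g / φ (g * h)

variable {p : ℕ} [Fact p.Prime] {S : Finset Nat.Primes}

/-- **TG6-A** (Kummer theory; helper26). -/
theorem finrank_H1_eq (hpS : pPrime p ∈ S) (L : IntermediateField ℚ Qb) [FiniteDimensional ℚ L]
    (hL : L.IsUnramifiedOutside S) {ζ : ↥L} (hζ : IsPrimitiveRoot ζ p) :
    Module.Finite (ZMod p) (H1 ((levS S).sub L.fixingSubgroup)
      (1 : Representation (ZMod p) ↥L.fixingSubgroup (ZMod p))) ∧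
    finrank (ZMod p) (H1 ((levS S).sub L.fixingSubgroup)
      (1 : Representation (ZMod p) ↥L.fixingSubgroup (ZMod p))) = finrank (ZMod p) (BS p (SPl S L)) :=
  TG6A.finrank_H1_eq hpS L hL hζ

/-- **TG6-D** conjugation by `w ∈ W` acts trivially on `H^2(W, F_p)`. -/
theorem locTriv_all {W : Subgroup GQ} {ι : Type} [Fintype ι] [DecidableEq ι]
    (A : ι → ValuationSubring Qb) (hA : IsPlaceSystem S W A) {x : ↥W × ↥W → ZMod p}
    (hx : x ∈ (DF S W A).ShaZ2 (1 : Representation (ZMod p) (DF S W A).G (ZMod p))) :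
    LocTrivAll p S x :=
  TG6.locTriv_all A hA hx

/- **TG6-B** `sha^2 ≤ c`, intrinsic form: `sha2_le_proof` in `TG6/Sha2.lean` (which imports this file). -/

/-- **TG6-C1** a place system has as many elements as there are places of `L` over `S`. -/
theorem card_placeSystem (L : IntermediateField ℚ Qb) [FiniteDimensional ℚ L] {ι : Type} [Fintype ι]
    (A : ι → ValuationSubring Qb) (hA : IsPlaceSystem S L.fixingSubgroup A) :
    Fintype.card ι = (SPl S L).card :=
  TG6.card_placeSystem L A hA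

/-- **TG6-C2** -/
theorem index_eq_finrank (L : IntermediateField ℚ Qb) [FiniteDimensional ℚ L] :
    L.fixingSubgroup.index = finrank ℚ ↥L :=
  TG6.index_eq_finrank L

/-- **TG6-C3** a primitive `p`-th root of unity in `L`. -/
theorem exists_zeta (L : IntermediateField ℚ Qb)
    (hmu : ∀ s ∈ L.fixingSubgroup, cycloChar p s = 1) : ∃ ζ : ↥L, IsPrimitiveRoot ζ p :=
  TG6.exists_zeta L hmu

end Fermat.Agent.CFT.Global
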