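import Mathlib

set_option autoImplicit false

/-!
# CFT / Global / TG6-B (d) : the linear relation lemma

A linear relation `Rel ≤ X × D`, total on `X`, such that `(x, d) ∈ Rel`, `d ∈ R` implies `x ∈ B`,
gives `dim X / B ≤ dim D / R`.
-/

namespace Fermat.Agent.CFT.Global

open Module

theorem finrank_quot_le_of_rel {k X D : Type*} [Field k] [AddCommGroup X] [Module k X]
    [AddCommGroup D] [Module k D] (B : Submodule k X) (R : Submodule k D)
    [FiniteDimensional k (D ⧸ R)] (Rel : Submodule k (X × D))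
    (htot : ∀ x, ∃ d, (x, d) ∈ Rel) (hker : ∀ x d, (x, d) ∈ Rel → d ∈ R → x ∈ B) :
    Module.Finite k (X ⧸ B) ∧ finrank k (X ⧸ B) ≤ finrank k (D ⧸ R) := by
  let f : Rel →ₗ[k] D ⧸ R := R.mkQ ∘ₗ LinearMap.snd k X D ∘ₗ Rel.subtype
  let g : Rel →ₗ[k] X ⧸ B := B.mkQ ∘ₗ LinearMap.fst k X D ∘ₗ Rel.subtype
  have hg : Function.Surjective g := by
    intro y
    obtain ⟨x, rfl⟩ := B.mkQ_surjective y
    obtain ⟨d, hd⟩ := htot x
    exact ⟨⟨(x, d), hd⟩, rfl⟩
  have hfg : LinearMap.ker f ≤ LinearMap.ker g := by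
    rintro ⟨⟨x, d⟩, hxd⟩ h
    rw [LinearMap.mem_ker] at h ⊢
    have h1 : d ∈ R := (Submodule.Quotient.mk_eq_zero R).1 h
    exact (Submodule.Quotient.mk_eq_zero B).2 (hker x d hxd h1)
  let g' : (Rel ⧸ LinearMap.ker f) →ₗ[k] X ⧸ B := (LinearMap.ker f).liftQ g hfg
  have hg' : Function.Surjective g' := by
    intro y
    obtain ⟨r, rfl⟩ := hg y
    exact ⟨Submodule.Quotient.mk r, rfl⟩
  let h : LinearMap.range f →ₗ[k] X ⧸ B := g' ∘ₗ f.quotKerEquivRange.symm.toLinearMap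
  have hh : Function.Surjective h := hg'.comp f.quotKerEquivRange.symm.surjective
  have fin : Module.Finite k (X ⧸ B) := Module.Finite.of_surjective h hh
  refine ⟨fin, ?_⟩
  calc finrank k (X ⧸ B) ≤ finrank k (LinearMap.range f) := LinearMap.finrank_le_finrank_of_surjective hh
    _ ≤ finrank k (D ⧸ R) := Submodule.finrank_le _

end Fermat.Agent.CFT.Global
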