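import Fermat.Agent.CFT.Global.TG6.Spec
import Fermat.Agent.CFT.Global.TG6.Sha2Lin
import Fermat.Agent.CFT.K.Bridge

set_option autoImplicit false
set_option linter.unusedSectionVars false

/-!
# CFT / Global / TG6-B : `sha^2 ≤ dim Cl_S(L)/p`

`x ∈ X` : the Hasse principle gives `φ` with `ζ ^ x = d φ`; `φ ^ p` is a 1-cocycle, `= d β` (Hilbert 90);
the divisor of `β` mod `p` is well defined; if it is principal mod `p`, `x` is a coboundary.
-/

open ExtCitation Module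
open scoped Pointwise

noncomputable section

namespace Fermat.Agent.CFT.Global

open Fermat.Agent.CFT Fermat.Agent.S14 Fermat.Agent.Bridge IsDedekindDomain NumberField

namespace Sha2

variable {p : ℕ} [Fact p.Prime] {S : Finset Nat.Primes}

/-! ### generalities -/

/-- an element fixed by an `S`-level is in `ℚ_S` -/
theorem mem_QS_of_fixed {U : Subgroup GQ} (hU : U ∈ (levS S).carrier) {x : Qb}
    (hx : ∀ s ∈ U, s x = x) : x ∈ QS S := by
  obtain ⟨F, hF, -, rfl⟩ := hU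
  intro q hq A hA g hg
  exact hx g (hF.2 q hq A hA hg)

theorem exists_lev_of_mem_QS {x : Qb} (hx : x ∈ QS S) :
    ∃ U ∈ (levS S).carrier, ∀ s ∈ U, s x = x := by
  obtain ⟨F, hF, hFn, hxF⟩ := exists_unram_of_mem_QS hx
  exact ⟨_, ⟨F, hF, hFn, rfl⟩, fun s hs => (IntermediateField.mem_fixingSubgroup_iff F s).1 hs x hxF⟩

theorem IsSCochain.mem_QS {V : Subgroup GQ} {φ : ↥V → Qb} (h : IsSCochain S φ) (g : ↥V) :
    φ g ∈ QS S := by
  obtain ⟨-, U, hU, -, h2⟩ := h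
  exact mem_QS_of_fixed hU (h2 g)

theorem pow_val_add {ζ : Qb} (hζ : ζ ^ p = 1) (a b : ZMod p) :
    ζ ^ (a + b).val = ζ ^ a.val * ζ ^ b.val := by
  rw [ZMod.val_add, ← pow_add, ← pow_eq_pow_mod _ hζ]

theorem pow_val_inj {ζ : Qb} (hζ : IsPrimitiveRoot ζ p) {a b : ZMod p}
    (h : ζ ^ a.val = ζ ^ b.val) : a = b :=
  ZMod.val_injective p (hζ.pow_inj (ZMod.val_lt a) (ZMod.val_lt b) h)

theorem exists_pow_val_eq {ζ : Qb} (hζ : IsPrimitiveRoot ζ p) {z : Qb} (hz : z ^ p = 1) :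
    ∃ a : ZMod p, ζ ^ a.val = z := by
  obtain ⟨i, hi, rfl⟩ := hζ.eq_pow_of_pow_eq_one hz
  exact ⟨(i : ZMod p), by rw [ZMod.val_natCast_of_lt hi]⟩

/-! ### the relation -/

/-- the relation between cocycles and divisors -/
def IsRel (S : Finset Nat.Primes) (L : IntermediateField ℚ Qb) [FiniteDimensional ℚ L] (ζ : Qb)
    (x : ↥L.fixingSubgroup × ↥L.fixingSubgroup → ZMod p) (D : DivP p (SPl S L)) : Prop :=
  ∃ (φ : ↥L.fixingSubgroup → Qb) (β : Qb), IsSCochain S φ ∧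
    (∀ g h : ↥L.fixingSubgroup, ζ ^ (x (g, h)).val = (g : GQ) (φ h) * φ g / φ (g * h)) ∧
    β ∈ QS S ∧ β ≠ 0 ∧ (∀ g : ↥L.fixingSubgroup, φ g ^ p = (g : GQ) β / β) ∧
    ∀ (v : {v : Pl ↥L // v ∉ SPl S L}) (q : Nat.Primes) (A : ValuationSubring Qb)
      (hA : A.LiesOverPrime (q : ℕ)), plA L q.2 A hA = v.1 → D v = ((ordA A q β : ℤ) : ZMod p)

variable {L : IntermediateField ℚ Qb} [FiniteDimensional ℚ L] {ζ : Qb}

theorem notMem_of_plA_eq {v : {v : Pl ↥L // v ∉ SPl S L}} {q : Nat.Primes}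
    {A : ValuationSubring Qb} {hA : A.LiesOverPrime (q : ℕ)} (h : plA L q.2 A hA = v.1) : q ∉ S := by
  intro hq
  exact v.2 (h ▸ (plA_mem_SPl_iff L hA).2 hq)

theorem IsRel.zero : IsRel (p := p) S L ζ 0 0 := by
  obtain ⟨U, hU⟩ := (levS S).nonempty
  refine ⟨fun _ => 1, 1, ⟨fun _ => one_ne_zero, U, hU, fun _ _ _ => rfl, fun _ s _ => map_one s⟩,
    fun g h => by simp, (QS S).one_mem, one_ne_zero, fun g => by simp, ?_⟩
  intro v q A hA _
  rw [ordA_eq_zero_of_pow_eq_one q.2 hA one_ne_zero (pow_one 1)]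
  simp

theorem IsRel.add (hζ : ζ ^ p = 1) {x x' : ↥L.fixingSubgroup × ↥L.fixingSubgroup → ZMod p}
    {D D' : DivP p (SPl S L)} (h : IsRel S L ζ x D) (h' : IsRel S L ζ x' D') :
    IsRel S L ζ (x + x') (D + D') := by
  obtain ⟨φ, β, ⟨h0, U, hU, hU1, hU2⟩, h1, h2, h3, h4, h5⟩ := h
  obtain ⟨φ', β', ⟨h0', U', hU', hU1', hU2'⟩, h1', h2', h3', h4', h5'⟩ := h'
  obtain ⟨W, hW, hWU, hWU'⟩ := (levS S).directed U hU U' hU'
  refine ⟨fun g => φ g * φ' g, β * β', ⟨fun g => mul_ne_zero (h0 g) (h0' g), W, hW, ?_, ?_⟩, ?_,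
    (QS S).mul_mem h2 h2', mul_ne_zero h3 h3', ?_, ?_⟩
  · intro g s hs
    simp only [hU1 g s (hWU hs), hU1' g s (hWU' hs)]
  · intro g s hs
    rw [map_mul, hU2 g s (hWU hs), hU2' g s (hWU' hs)]
  · intro g h
    rw [Pi.add_apply, pow_val_add hζ, h1, h1', map_mul]
    ring
  · intro g
    rw [mul_pow, h4, h4', map_mul]
    ring
  · intro v q A hA hv
    have hq : q ∉ S := notMem_of_plA_eq hv
    rw [Finsupp.add_apply, h5 v q A hA hv, h5' v q A hA hv, ordA_mul hq hA h2 h3 h2' h3']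
    push_cast
    ring

/-! ### (c) : principal divisors give coboundaries -/

theorem IsRel.mem_B2 (hpS : pPrime p ∈ S) (hL : L.IsUnramifiedOutside S)
    (hζ : IsPrimitiveRoot ζ p) (hζL : ∀ g ∈ L.fixingSubgroup, g ζ = ζ)
    {x : ↥L.fixingSubgroup × ↥L.fixingSubgroup → ZMod p} {D : DivP p (SPl S L)}
    (h : IsRel S L ζ x D) (hD : D ∈ LinearMap.range (divP p (SPl S L))) :
    x ∈ B2 ((levS S).sub L.fixingSubgroup)
      (1 : Representation (ZMod p) ↥L.fixingSubgroup (ZMod p)) := by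
  obtain ⟨φ, β, ⟨h0, U, hU, hU1, hU2⟩, h1, h2, h3, h4, h5⟩ := h
  obtain ⟨a, rfl⟩ := hD
  obtain ⟨b, hb0, rfl⟩ := cls_surjective a
  have hbQ : (b : Qb) ∈ QS S := le_QS_of_unram hL b.2
  have hb0' : (b : Qb) ≠ 0 := fun h => hb0 (Subtype.ext h)
  have hp : p.Prime := Fact.out
  obtain ⟨γ, hγ⟩ := IsAlgClosed.exists_pow_nat_eq (β / (b : Qb)) hp.pos
  have hβb : β / b ∈ QS S := (QS S).div_mem h2 hbQ
  have hβb0 : β / b ≠ 0 := div_ne_zero h3 hb0'
  have hγ0 : γ ≠ 0 := by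
    rintro rfl
    rw [zero_pow hp.ne_zero] at hγ
    exact hβb0 hγ.symm
  have hγQ : γ ∈ QS S := by
    refine root_mem_QS hpS hβb hβb0 (m := 1) (by rw [pow_one]; exact hγ) ?_
    intro q hq A hA
    have hv : plA L q.2 A hA ∉ SPl S L := fun h => hq ((plA_mem_SPl_iff L hA).1 h)
    have e1 := h5 ⟨_, hv⟩ q A hA rfl
    rw [divP_cls p _ hb0, ord_plA_eq_ordA hq hA L hL b hb0] at e1
    rw [div_eq_mul_inv, ordA_mul hq hA h2 h3 ((QS S).inv_mem hbQ) (inv_ne_zero hb0'),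
      ordA_inv hq hA hbQ hb0', pow_one, ← ZMod.intCast_zmod_eq_zero_iff_dvd]
    push_cast
    rw [e1]
    ring
  obtain ⟨U', hU', hγU⟩ := exists_lev_of_mem_QS hγQ
  obtain ⟨W, hW, hWU, hWU'⟩ := (levS S).directed U hU U' hU'
  set ψ : ↥L.fixingSubgroup → Qb := fun g => φ g * γ / (g : GQ) γ with hψ
  have hgb : ∀ g : ↥L.fixingSubgroup, (g : GQ) (b : Qb) = b := fun g =>
    (IntermediateField.mem_fixingSubgroup_iff L g).1 g.2 b b.2
  have hne : ∀ (g : GQ) {z : Qb}, z ≠ 0 → g z ≠ 0 := fun g z hz =>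
    (map_ne_zero_iff g g.injective).2 hz
  have hψp : ∀ g, ψ g ^ p = 1 := by
    intro g
    have hgγ : ((g : GQ) γ) ^ p = (g : GQ) β / b := by rw [← map_pow, hγ, map_div₀, hgb]
    simp only [hψ]
    rw [div_pow, mul_pow, h4, hγ, hgγ]
    have := hne (g : GQ) h3
    field_simp
  choose y hy using fun g => exists_pow_val_eq hζ (hψp g)
  refine ⟨y, ⟨W.subgroupOf _, ⟨W, hW, rfl⟩, ?_⟩, ?_⟩
  · intro g s hs
    apply pow_val_inj hζ
    rw [hy, hy]
    simp only [hψ]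
    have hs' : (s : GQ) ∈ W := hs
    rw [hU1 g s (hWU hs'), Subgroup.coe_mul, AlgEquiv.mul_apply, hγU s (hWU' hs')]
  · funext ⟨g, h⟩
    have key : x (g, h) + y (g * h) = y h + y g := by
      apply pow_val_inj hζ
      rw [pow_val_add hζ.pow_eq_one, pow_val_add hζ.pow_eq_one, h1, hy, hy, hy]
      have e : ψ h = (g : GQ) (ψ h) := by rw [← hy h, map_pow, hζL g g.2]
      rw [e]
      simp only [hψ]
      rw [map_div₀, map_mul, Subgroup.coe_mul, AlgEquiv.mul_apply]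
      have n1 := h0 (g * h)
      have n2 := hne (g : GQ) hγ0
      have n3 := hne (g : GQ) (hne (h : GQ) hγ0)
      field_simp
    rw [d12_apply]
    have e1 : (1 : Representation (ZMod p) ↥L.fixingSubgroup (ZMod p)) g (y h) = y h := rfl
    simp only [e1]
    linear_combination -key

/-! ### (a) : Hilbert 90 -/

theorem exists_beta (hL : L.IsUnramifiedOutside S) (hζ : ζ ^ p = 1)
    {φ : ↥L.fixingSubgroup → Qb} (hφ : IsSCochain S φ)
    {x : ↥L.fixingSubgroup × ↥L.fixingSubgroup → ZMod p}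
    (h1 : ∀ g h : ↥L.fixingSubgroup, ζ ^ (x (g, h)).val = (g : GQ) (φ h) * φ g / φ (g * h)) :
    ∃ β ∈ QS S, β ≠ 0 ∧ ∀ g : ↥L.fixingSubgroup, φ g ^ p = (g : GQ) β / β := by
  obtain ⟨h0, U, hU, hU1, hU2⟩ := hφ
  obtain ⟨U₁, hU₁, hU₁L⟩ := exists_levS_le hL
  obtain ⟨W, hW, hWU, hWU₁⟩ := (levS S).directed U hU U₁ hU₁
  have hWmem : W.subgroupOf L.fixingSubgroup ∈ ((levS S).sub L.fixingSubgroup).carrier :=
    ⟨W, hW, rfl⟩
  have := ((levS S).sub L.fixingSubgroup).normal _ hWmem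
  have := ((levS S).sub L.fixingSubgroup).finiteIndex _ hWmem
  have hGal : ∀ g : ↥L.fixingSubgroup,
      (∀ x : Qb, (∀ s ∈ W.subgroupOf L.fixingSubgroup, s • x = x) → g • x = x) →
        g ∈ W.subgroupOf L.fixingSubgroup := by
    intro g hg
    obtain ⟨F, hF, hFn, rfl⟩ := hW
    change (g : GQ) ∈ F.fixingSubgroup
    rw [IntermediateField.mem_fixingSubgroup_iff]
    intro y hy
    exact hg y (fun s hs => (IntermediateField.mem_fixingSubgroup_iff F s).1 hs y hy)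
  have hc : ∀ g h : ↥L.fixingSubgroup, φ (g * h) ^ p = φ g ^ p * g • (φ h ^ p) := by
    intro g h
    have e : (ζ ^ (x (g, h)).val) ^ p = ((g : GQ) (φ h) * φ g / φ (g * h)) ^ p := by rw [h1 g h]
    rw [← pow_mul, mul_comm, pow_mul, hζ, one_pow, div_pow, mul_pow,
      eq_div_iff (pow_ne_zero _ (h0 _)), one_mul] at e
    have e2 : g • (φ h ^ p) = ((g : GQ) (φ h)) ^ p := map_pow (g : GQ) _ _
    rw [e, e2]
    ring
  obtain ⟨b, hb0, hbW, hb⟩ := hilbert90_mul (G := ↥L.fixingSubgroup) (Ω := Qb)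
    (U := W.subgroupOf L.fixingSubgroup) hGal (fun g => φ g ^ p) (fun g => pow_ne_zero _ (h0 g)) hc
    (fun g s hs => by simp only [hU1 g s (hWU hs)])
  exact ⟨b, mem_QS_of_fixed hW (fun s hs => hbW ⟨s, hU₁L (hWU₁ hs)⟩ hs), hb0, hb⟩

/-! ### (b) : the divisor of `β` -/

theorem prime_eq_of_plA_eq (F : IntermediateField ℚ Qb) [FiniteDimensional ℚ F]
    {q q' : Nat.Primes} {A A' : ValuationSubring Qb}
    {hA : A.LiesOverPrime (q : ℕ)} {hA' : A'.LiesOverPrime (q' : ℕ)}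
    (h : plA F q.2 A hA = plA F q'.2 A' hA') : q = q' := by
  by_contra hne
  have hP : primeBelow (emb F) A = primeBelow (emb F) A' := congrArg HeightOneSpectrum.asIdeal h
  have m1 : ((q : ℕ) : 𝓞 ↥F) ∈ primeBelow (emb F) A := natCast_mem_primeBelow (emb F) hA
  have m2 : ((q' : ℕ) : 𝓞 ↥F) ∈ primeBelow (emb F) A := hP ▸ natCast_mem_primeBelow (emb F) hA'
  have hcop : IsCoprime ((q : ℕ) : ℤ) ((q' : ℕ) : ℤ) :=
    Nat.isCoprime_iff_coprime.2 ((Nat.coprime_primes q.2 q'.2).2 (fun h => hne (Subtype.ext h)))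
  obtain ⟨u, v, huv⟩ := hcop
  have e : (u : 𝓞 ↥F) * ((q : ℕ) : 𝓞 ↥F) + (v : 𝓞 ↥F) * ((q' : ℕ) : 𝓞 ↥F) = 1 := by
    have := congrArg (Int.cast : ℤ → 𝓞 ↥F) huv
    push_cast at this
    exact this
  have m3 : (1 : 𝓞 ↥F) ∈ primeBelow (emb F) A :=
    e ▸ Ideal.add_mem _ (Ideal.mul_mem_left _ _ m1) (Ideal.mul_mem_left _ _ m2)
  exact (primeBelow_isPrime (emb F) A).ne_top ((Ideal.eq_top_iff_one _).2 m3)

theorem ordA_cast_eq {φ : ↥L.fixingSubgroup → Qb} (hφ : IsSCochain S φ) {β : Qb} (hβQ : β ∈ QS S)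
    (hβ0 : β ≠ 0) (h4 : ∀ g : ↥L.fixingSubgroup, φ g ^ p = (g : GQ) β / β)
    {q q' : Nat.Primes} (hq : q ∉ S) {A A' : ValuationSubring Qb}
    (hA : A.LiesOverPrime (q : ℕ)) (hA' : A'.LiesOverPrime (q' : ℕ))
    (h : plA L q.2 A hA = plA L q'.2 A' hA') :
    ((ordA A q β : ℤ) : ZMod p) = ((ordA A' q' β : ℤ) : ZMod p) := by
  obtain rfl : q = q' := prime_eq_of_plA_eq L h
  have hP : primeBelow (emb L) A = primeBelow (emb L) A' := congrArg HeightOneSpectrum.asIdeal h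
  obtain ⟨n, hn, rfl⟩ := exists_smul_eq_of_primeBelow_eq (emb L) q.2 hA hA' hP
  rw [fixer_emb] at hn
  let g : ↥L.fixingSubgroup := ⟨n⁻¹, L.fixingSubgroup.inv_mem hn⟩
  have e1 : n⁻¹ β = φ g ^ p * β := by
    rw [h4 g, div_mul_cancel₀ _ hβ0]
  have e2 : ordA (n • A) q β = ordA A q (n⁻¹ β) := by
    rw [← ordA_smul n A q (n⁻¹ β)]
    congr 1
    exact (n.apply_symm_apply β).symm
  rw [e2, e1, ordA_mul hq hA (pow_mem (IsSCochain.mem_QS hφ g) p) (pow_ne_zero _ (hφ.1 g)) hβQ hβ0,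
    ordA_pow hq hA (IsSCochain.mem_QS hφ g) (hφ.1 g)]
  push_cast
  rw [ZMod.natCast_self]
  ring

theorem exists_div {φ : ↥L.fixingSubgroup → Qb} (hφ : IsSCochain S φ) {β : Qb} (hβQ : β ∈ QS S)
    (hβ0 : β ≠ 0) (h4 : ∀ g : ↥L.fixingSubgroup, φ g ^ p = (g : GQ) β / β) :
    ∃ D : DivP p (SPl S L), ∀ (v : {v : Pl ↥L // v ∉ SPl S L}) (q : Nat.Primes)
      (A : ValuationSubring Qb) (hA : A.LiesOverPrime (q : ℕ)), plA L q.2 A hA = v.1 →
        D v = ((ordA A q β : ℤ) : ZMod p) := by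
  classical
  choose q₀ A₀ hA₀ hv₀ using fun v : {v : Pl ↥L // v ∉ SPl S L} => exists_plA_eq L v.1
  obtain ⟨F, hF, -, hβF⟩ := exists_unram_of_mem_QS hβQ
  have := hF.1
  have hβF0 : (⟨β, hβF⟩ : ↥F) ≠ 0 := fun h => hβ0 (congrArg Subtype.val h)
  choose q₁ A₁ hA₁ hv₁ using fun w : Pl ↥F => exists_plA_eq F w
  let T : Finset Nat.Primes := (finite_support_ord hβF0).toFinset.image q₁
  have hfin : (Function.support fun v : {v : Pl ↥L // v ∉ SPl S L} =>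
      ((ordA (A₀ v) (q₀ v) β : ℤ) : ZMod p)).Finite := by
    have hfin2 : (⋃ q ∈ T, {v : Pl ↥L | Above ((q : Nat.Primes) : ℕ) v}).Finite :=
      T.finite_toSet.biUnion fun q _ => finite_above (q : ℕ) q.2.ne_zero
    refine (hfin2.preimage Subtype.val_injective.injOn).subset ?_
    intro v hv
    have hq : q₀ v ∉ S := notMem_of_plA_eq (hv₀ v)
    have h1 : ordA (A₀ v) (q₀ v) β ≠ 0 := by
      intro h
      apply hv
      simp [h]
    rw [← ord_plA_eq_ordA hq (hA₀ v) F hF ⟨β, hβF⟩ hβF0] at h1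
    have h2 : q₁ (plA F (q₀ v).2 (A₀ v) (hA₀ v)) = q₀ v := prime_eq_of_plA_eq F (hv₁ _)
    simp only [Set.mem_preimage, Set.mem_iUnion]
    refine ⟨q₀ v, ?_, ?_⟩
    · rw [← h2]
      exact Finset.mem_image_of_mem _ ((Set.Finite.mem_toFinset _).2 h1)
    · change ((q₀ v : ℕ) : 𝓞 ↥L) ∈ v.1.asIdeal
      rw [← hv₀ v]
      exact natCast_mem_primeBelow (emb L) (hA₀ v)
  refine ⟨Finsupp.ofSupportFinite _ hfin, fun v q A hA hv => ?_⟩
  rw [Finsupp.ofSupportFinite_coe]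
  exact ordA_cast_eq hφ hβQ hβ0 h4 (notMem_of_plA_eq (hv₀ v)) (hA₀ v) hA ((hv₀ v).trans hv.symm)

theorem exists_isRel (hH : HasseS p S) (hL : L.IsUnramifiedOutside S) (hζ : IsPrimitiveRoot ζ p)
    (hζL : ∀ g ∈ L.fixingSubgroup, g ζ = ζ) {x : ↥L.fixingSubgroup × ↥L.fixingSubgroup → ZMod p}
    (hx : x ∈ Z2 ((levS S).sub L.fixingSubgroup)
      (1 : Representation (ZMod p) ↥L.fixingSubgroup (ZMod p))) (hloc : LocTrivAll p S x) :
    ∃ D, IsRel S L ζ x D := by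
  obtain ⟨φ, hφ, h1⟩ := hH L.fixingSubgroup ζ (exists_levS_le hL) hζ hζL x hx hloc
  obtain ⟨β, hβQ, hβ0, h4⟩ := exists_beta hL hζ.pow_eq_one hφ h1
  obtain ⟨D, hD⟩ := exists_div hφ hβQ hβ0 h4
  exact ⟨D, φ, β, hφ, h1, hβQ, hβ0, h4, hD⟩

/-! ### (d) : conclusion -/

/-- the relation as a submodule -/
def relSub (S : Finset Nat.Primes) (L : IntermediateField ℚ Qb) [FiniteDimensional ℚ L] {ζ : Qb}
    (hζ : ζ ^ p = 1)
    (X : Submodule (ZMod p) (↥L.fixingSubgroup × ↥L.fixingSubgroup → ZMod p)) :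
    Submodule (ZMod p) (↥X × DivP p (SPl S L)) where
  carrier := {z | IsRel S L ζ (z.1 : ↥L.fixingSubgroup × ↥L.fixingSubgroup → ZMod p) z.2}
  add_mem' := fun {a b} ha hb => IsRel.add hζ ha hb
  zero_mem' := IsRel.zero
  smul_mem' := by
    intro c z hz
    have key : ∀ n : ℕ, IsRel S L ζ
        (((n • z).1 : ↥X) : ↥L.fixingSubgroup × ↥L.fixingSubgroup → ZMod p) (n • z).2 := by
      intro n
      induction n with
      | zero => rw [zero_smul]; exact IsRel.zero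
      | succ n ih => rw [succ_nsmul]; exact IsRel.add hζ ih hz
    have e : c • z = c.val • z := by
      rw [← Nat.cast_smul_eq_nsmul (ZMod p), ZMod.natCast_zmod_val]
    rw [e]
    exact key _

end Sha2

/-- **TG6-B** `sha^2 ≤ c`, intrinsic form (proof of `sha2_le` of `TG6/Spec.lean`). -/
theorem sha2_le_proof {p : ℕ} [Fact p.Prime] {S : Finset Nat.Primes}
    (hH : HasseS p S) (hpS : pPrime p ∈ S) (L : IntermediateField ℚ Qb)
    [FiniteDimensional ℚ L] (hL : L.IsUnramifiedOutside S) {ζ : ↥L} (hζ : IsPrimitiveRoot ζ p)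
    (X : Submodule (ZMod p) (↥L.fixingSubgroup × ↥L.fixingSubgroup → ZMod p))
    (hX : ∀ x ∈ X, x ∈ Z2 ((levS S).sub L.fixingSubgroup)
      (1 : Representation (ZMod p) ↥L.fixingSubgroup (ZMod p)) ∧ LocTrivAll p S x) :
    Module.Finite (ZMod p) (↥X ⧸ (B2 ((levS S).sub L.fixingSubgroup)
      (1 : Representation (ZMod p) ↥L.fixingSubgroup (ZMod p))).submoduleOf X) ∧
    finrank (ZMod p) (↥X ⧸ (B2 ((levS S).sub L.fixingSubgroup)
      (1 : Representation (ZMod p) ↥L.fixingSubgroup (ZMod p))).submoduleOf X)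
      ≤ clRank p (SPl S L) := by
  have hζ' : IsPrimitiveRoot (ζ : Qb) p := hζ.map_of_injective (f := emb L) (emb L).injective
  have hζL : ∀ g ∈ L.fixingSubgroup, g (ζ : Qb) = ζ := fun g hg =>
    (IntermediateField.mem_fixingSubgroup_iff L g).1 hg ζ ζ.2
  obtain ⟨-, fin, -⟩ := finrank_BS hζ (SPl S L)
  exact finrank_quot_le_of_rel _ (LinearMap.range (divP p (SPl S L)))
    (Sha2.relSub S L hζ'.pow_eq_one X)
    (fun x => Sha2.exists_isRel hH hL hζ' hζL (hX x x.2).1 (hX x x.2).2)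
    (fun x d hxd hd => Sha2.IsRel.mem_B2 hpS hL hζ' hζL hxd hd)

end Fermat.Agent.CFT.Global
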