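import Fermat.Agent.CFT.Global.TG6.Spec
import Fermat.Agent.CFT.Global.TG6.Sha2

set_option autoImplicit false

/-! # CFT / Global / TG6 : assembly of `num_of_nice` from TG6-A..D and the Hasse principle. -/

open ExtCitation Module

namespace Fermat.Agent.CFT.Global

open Fermat.Agent.CFT Fermat.Agent.S14

theorem num_of_hasse {p : ℕ} [Fact p.Prime] (hp2 : p ≠ 2) (S : Finset Nat.Primes)
    (hH : HasseS p S)
    (hpS : pPrime p ∈ S) {W : Subgroup GQ} (hW : NiceLevel p S W) {ι : Type} [Fintype ι]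
    [DecidableEq ι] (A : ι → ValuationSubring Qb) (hA : IsPlaceSystem S W A) :
    Module.Finite (ZMod p) (H1 ((levS S).sub W) (1 : Representation (ZMod p) ↥W (ZMod p))) ∧
    Module.Finite (ZMod p) ((DF S W A).Sha2 (1 : Representation (ZMod p) (DF S W A).G (ZMod p))) ∧
    2 * Fintype.card ι + W.index
        + 2 * finrank (ZMod p) ((DF S W A).Sha2 (1 : Representation (ZMod p) (DF S W A).G (ZMod p)))
      ≤ 2 * finrank (ZMod p) (H1 ((levS S).sub W) (1 : Representation (ZMod p) ↥W (ZMod p))) := by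
  have hmu := hW.mu
  obtain ⟨L, hL, hLn, rfl⟩ := hW.mem
  have := hL.1
  obtain ⟨ζ, hζ⟩ := exists_zeta (p := p) L hmu
  have hp3 : 2 < p := lt_of_le_of_ne (Fact.out : p.Prime).two_le (Ne.symm hp2)
  obtain ⟨f1, e1⟩ := finrank_H1_eq hpS L hL hζ
  obtain ⟨-, -, e2⟩ := finrank_BS hζ (SPl S L)
  have e3 := two_mul_rank_add_one hp3 hζ
  have e4 := card_placeSystem L A hA
  have e5 := index_eq_finrank L
  obtain ⟨f2, e6⟩ := sha2_le_proof hH hpS L hL hζ
    ((DF S L.fixingSubgroup A).ShaZ2 (1 : Representation (ZMod p) (DF S L.fixingSubgroup A).G (ZMod p)))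
    (fun x hx => ⟨hx.1, locTriv_all A hA hx⟩)
  refine ⟨f1, f2, ?_⟩
  have e6' : finrank (ZMod p) ((DF S L.fixingSubgroup A).Sha2
      (1 : Representation (ZMod p) (DF S L.fixingSubgroup A).G (ZMod p))) ≤ clRank p (SPl S L) := e6
  rw [e1, e2, e4, e5, ← e3]
  omega

end Fermat.Agent.CFT.Global
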